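import Mathlib
import Fermat.Agent.S41.H701.NonEisensteinKummer
import Fermat.Agent.S31.Defs

/-!
# S59 / cell NM / leaf IHARA2 — NE' for `(k, ρ̄)` (helper424)

`nePrimeK_h424` : the statement `Fermat.Agent.S59.H62.NEPrimeKStatement` of helper62's plan
(`coord/S59-IHARA2-helper62.md`), stated UNFOLDED (same binders), unconditional:

`ρ̄ : G_ℚ → GL₂(k)` absolutely irreducible, `k` a field of odd characteristic `p`, `a l` the
Frobenius traces of `ρ̄` off `S`, `q` a prime.  Then for every `m ≥ 1` and every finite set `S'`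
there is a prime `l ∉ S ∪ S'`, `l ≡ 1 mod m`, `l ≡ 1 mod p`, with `a l ≠ l + 1` in `k` and
`q ^ ((l - 1) / p) ≢ 1 mod l`.

Proof: the S41 block NE' of helper701 (`S41/H701/NonEisensteinKummer.lean`) with `E[p]` replaced
by `ρ̄`: Frobenius division (`Lib.Cheb.frobeniusDivision`) on `ℚ(L_ρ̄, ζ_{mp}, β)`, `β^p = q`,
Cayley–Hamilton for the Frobenius relation, the `2 × 2` trace trick and the abstract stable line
lemma.
-/

set_option autoImplicit false

open Polynomial Module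
open scoped TensorProduct

namespace Fermat.Agent.S59.H424

open Fermat.Agent.Lib.Frob (Qb)
open Fermat.Agent.S41.H701
open Fermat.Agent.S55.H414 (cycloPow zetaBar zetaBar_spec)

section Field

/-- the field `L(ζ_M, β)` -/
noncomputable def neField_h424 (L : IntermediateField ℚ Qb) (M : ℕ) [NeZero M] (β : Qb) :
    IntermediateField ℚ Qb :=
  L ⊔ IntermediateField.adjoin ℚ ({zetaBar M, β} : Set Qb)

lemma le_neField_h424 (L : IntermediateField ℚ Qb) (M : ℕ) [NeZero M] (β : Qb) :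
    L ≤ neField_h424 L M β := le_sup_left

lemma zeta_mem_neField_h424 (L : IntermediateField ℚ Qb) (M : ℕ) [NeZero M] (β : Qb) :
    zetaBar M ∈ neField_h424 L M β :=
  (le_sup_right : _ ≤ neField_h424 L M β)
    (IntermediateField.subset_adjoin _ _ (Set.mem_insert _ _))

lemma beta_mem_neField_h424 (L : IntermediateField ℚ Qb) (M : ℕ) [NeZero M] (β : Qb) :
    β ∈ neField_h424 L M β :=
  (le_sup_right : _ ≤ neField_h424 L M β)
    (IntermediateField.subset_adjoin _ _ (Set.mem_insert_of_mem _ rfl))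

lemma finiteDimensional_neField_h424 (L : IntermediateField ℚ Qb) (hL : FiniteDimensional ℚ L)
    (M : ℕ) [NeZero M] (β : Qb) : FiniteDimensional ℚ (neField_h424 L M β) := by
  have hS : ({zetaBar M, β} : Set Qb).Finite := Set.toFinite _
  have : Finite ({zetaBar M, β} : Set Qb) := hS.to_subtype
  have : Algebra.IsAlgebraic ℚ Qb := AlgebraicClosure.isAlgebraic ℚ
  have h2 : FiniteDimensional ℚ (IntermediateField.adjoin ℚ ({zetaBar M, β} : Set Qb)) :=
    IntermediateField.finiteDimensional_adjoin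
      (fun x _ => (Algebra.IsAlgebraic.isAlgebraic x).isIntegral)
  unfold neField_h424
  exact IntermediateField.finiteDimensional_sup L _

end Field

section Package

variable {k : Type} [Field k] (ρbar : ResidualGaloisRep k)

/-- two automorphisms agreeing on a field of definition of `ρ̄` have the same image -/
lemma rho_eq_of_eqOn_h424 (L : IntermediateField ℚ Qb)
    (hL : ∀ σ : GQ701, (∀ x ∈ L, σ x = x) → ρbar.ρ σ = 1) (σ τ : GQ701)
    (h : ∀ x ∈ L, σ x = τ x) : ρbar.ρ σ = ρbar.ρ τ := by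
  have h1 : ρbar.ρ (τ⁻¹ * σ) = 1 := by
    apply hL
    intro x hx
    show (τ⁻¹ : GQ701) (σ x) = x
    rw [h x hx]
    show (τ⁻¹ * τ) x = x
    rw [inv_mul_cancel]
    rfl
  have h2 : σ = τ * (τ⁻¹ * σ) := by group
  rw [h2, map_mul, h1, mul_one]

/-- agreeing at `ζ_M` ⇒ same cyclotomic character -/
lemma cycloPow_eq_of_apply_zeta_h424 (M : ℕ) [NeZero M] (σ τ : GQ701)
    (h : σ (zetaBar M) = τ (zetaBar M)) : cycloPow M σ = cycloPow M τ := by
  rw [Fermat.Agent.S55.H414.cycloPow_eq_iff, h]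
  exact Fermat.Agent.S55.H414.cycloPow_spec M τ

/-- **Frobenius package** for `ρ̄`: every `σ` is, on `L_ρ̄(ζ_M, β)`, a power of a Frobenius
element `τ` at a prime `ℓ ∉ S ∪ S'`, `ℓ ∤ M`, which is itself a power of `σ` there. -/
theorem exists_frob_package_h424 (S : Finset ℕ) (a : ℕ → k)
    (ha : ∀ (l : ℕ), l.Prime → l ∉ S →
      ∀ B : ValuationSubring Qb, B.LiesOverPrime l →
        ∀ σ : GQ701, B.IsFrobeniusAt σ l →
          LinearMap.charpoly (ρbar.ρ σ) = X ^ 2 - C (a l) * X + C ((l : k)))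
    (M : ℕ) [NeZero M] (β : Qb) (S' : Finset ℕ) (σ : GQ701) :
    ∃ (ℓ : ℕ) (A : ValuationSubring Qb) (τ : GQ701) (e j : ℕ),
      ℓ.Prime ∧ ℓ ∉ S ∧ ℓ ∉ S' ∧ A.LiesOverPrime ℓ ∧ A.IsFrobeniusAt τ ℓ ∧
      ρbar.ρ σ = ρbar.ρ τ ^ j ∧
      cycloPow M σ = cycloPow M τ ^ j ∧ cycloPow M τ = cycloPow M σ ^ e ∧
      (τ ^ j) β = σ β ∧
      ((cycloPow M τ : (ZMod M)ˣ) : ZMod M) = (ℓ : ZMod M) ∧
      ρbar.ρ τ * ρbar.ρ τ - a ℓ • ρbar.ρ τ + (ℓ : k) • (1 : Module.End k ρbar.V) = 0 := by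
  classical
  have hMpos : 0 < M := Nat.pos_of_ne_zero (NeZero.ne M)
  obtain ⟨L, hLfd, hL⟩ := ρbar.factorsThroughFiniteLevel
  have hfd := finiteDimensional_neField_h424 L hLfd M β
  obtain ⟨ℓ, A, τ, e, j, hℓ, hℓS, hA, hτ, -, hτσ, hστ⟩ :=
    Fermat.Agent.Lib.Cheb.frobeniusDivision (neField_h424 L M β) hfd σ
      (S ∪ S' ∪ M.primeFactors)
  simp only [Finset.mem_union, not_or] at hℓS
  obtain ⟨⟨hℓS, hℓS'⟩, hℓM⟩ := hℓS
  have hcop : Nat.Coprime ℓ M := by
    rw [Nat.Prime.coprime_iff_not_dvd hℓ]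
    intro h
    exact hℓM (Nat.mem_primeFactors.mpr ⟨hℓ, h, hMpos.ne'⟩)
  have hχτ : ((cycloPow M τ : (ZMod M)ˣ) : ZMod M) = (ℓ : ZMod M) :=
    coe_cycloPow_frob_h701 hA hτ hcop
  refine ⟨ℓ, A, τ, e, j, hℓ, hℓS, hℓS', hA, hτ, ?_, ?_, ?_, ?_, hχτ, ?_⟩
  · rw [← map_pow]
    exact (rho_eq_of_eqOn_h424 ρbar L hL (τ ^ j) σ
      (fun x hx => hστ x (le_neField_h424 L M β hx))).symm
  · rw [← map_pow]
    exact (cycloPow_eq_of_apply_zeta_h424 M (τ ^ j) σ
      (hστ _ (zeta_mem_neField_h424 L M β))).symm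
  · rw [← map_pow]
    exact cycloPow_eq_of_apply_zeta_h424 M τ (σ ^ e) (hτσ _ (zeta_mem_neField_h424 L M β))
  · exact hστ β (beta_mem_neField_h424 L M β)
  · have hch := ha ℓ hℓ hℓS A hA τ hτ
    have hCH := LinearMap.aeval_self_charpoly (ρbar.ρ τ)
    rw [hch] at hCH
    simp only [map_sub, map_add, map_mul, map_pow, aeval_X, aeval_C,
      Algebra.algebraMap_eq_smul_one] at hCH
    rw [← hCH]
    rw [pow_two, smul_mul_assoc, one_mul]

end Package

section Irr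

variable {k : Type} [Field k] (ρbar : ResidualGaloisRep k)

/-- An absolutely irreducible `ρ̄` has no proper nonzero stable subspace over `k`. -/
theorem not_exists_stable_h424 (habs : ρbar.IsAbsolutelyIrreducible)
    (L : Submodule k ρbar.V) (hL0 : L ≠ ⊥) (hL1 : L ≠ ⊤)
    (hstab : ∀ σ : GQ701, ∀ v ∈ L, ρbar.ρ σ v ∈ L) : False := by
  classical
  -- `L` is a line
  have hle : finrank k L ≤ 2 := by
    have := Submodule.finrank_le L
    rwa [ρbar.finrank_eq] at this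
  have hne0 : finrank k L ≠ 0 := by
    intro h
    exact hL0 (Submodule.finrank_eq_zero.mp h)
  have hne2 : finrank k L ≠ 2 := by
    intro h
    apply hL1
    apply Submodule.eq_top_of_finrank_eq
    rw [h, ρbar.finrank_eq]
  have h1 : finrank k L = 1 := by omega
  obtain ⟨⟨w, hwL⟩, hw0, hwspan⟩ := finrank_eq_one_iff'.mp h1
  have hw : w ≠ 0 := by
    intro h
    apply hw0
    exact Subtype.ext h
  have hline : ∀ σ : GQ701, ∃ c : k, ρbar.ρ σ w = c • w := by
    intro σ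
    obtain ⟨c, hc⟩ := hwspan ⟨ρbar.ρ σ w, hstab σ w hwL⟩
    refine ⟨c, ?_⟩
    have := congrArg (fun x : L => (x : ρbar.V)) hc
    exact this.symm
  -- base change
  let x : AlgebraicClosure k ⊗[k] ρbar.V := (1 : AlgebraicClosure k) ⊗ₜ[k] w
  have hx : x ≠ 0 := by
    intro h
    apply hw
    have hinj := Module.Flat.tensorProduct_mk_injective k ρbar.V (AlgebraicClosure k)
    apply hinj
    rw [map_zero]
    exact h
  let W : Submodule (AlgebraicClosure k) (AlgebraicClosure k ⊗[k] ρbar.V) :=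
    Submodule.span (AlgebraicClosure k) {x}
  have hWstab : ∀ σ : GQ701, ∀ y ∈ W, (ρbar.baseChange (AlgebraicClosure k)).ρ σ y ∈ W := by
    intro σ y hy
    obtain ⟨b, rfl⟩ := Submodule.mem_span_singleton.1 hy
    obtain ⟨c, hc⟩ := hline σ
    have e : (ρbar.baseChange (AlgebraicClosure k)).ρ σ x =
        (algebraMap k (AlgebraicClosure k) c) • x := by
      show (ρbar.ρ σ).baseChange (AlgebraicClosure k) ((1 : AlgebraicClosure k) ⊗ₜ[k] w) = _
      rw [LinearMap.baseChange_tmul, hc, TensorProduct.tmul_smul, algebraMap_smul]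
    rw [map_smul, e]
    exact Submodule.smul_mem _ _ (Submodule.smul_mem _ _ (Submodule.mem_span_singleton_self x))
  rcases habs W hWstab with h | h
  · exact hx (Submodule.span_singleton_eq_bot.1 h)
  · have h1 : Module.finrank (AlgebraicClosure k) W = 2 := by
      rw [h, finrank_top, Module.finrank_baseChange, ρbar.finrank_eq]
    have h2 : Module.finrank (AlgebraicClosure k) W = 1 := finrank_span_singleton hx
    omega

end Irr

section Main

/-- **NE' for `(k, ρ̄)`** (non-Eisenstein primes with a Kummer condition): the statement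
`Fermat.Agent.S59.H62.NEPrimeKStatement`, unfolded. -/
theorem nePrimeK_h424 (p : ℕ) [Fact p.Prime] (hp2 : p ≠ 2) (k : Type) [Field k] [Finite k]
    [CharP k p]
    (ρbar : ResidualGaloisRep k) (habs : ρbar.IsAbsolutelyIrreducible)
    (_hsplit : ∀ σ : AlgebraicClosure ℚ ≃ₐ[ℚ] AlgebraicClosure ℚ,
      ∃ α β : k, LinearMap.charpoly (ρbar.ρ σ) = (X - C α) * (X - C β))
    (S : Finset ℕ) (_hpS : p ∈ S) (a : ℕ → k)
    (ha : ∀ (l : ℕ), l.Prime → l ∉ S →
      ∀ B : ValuationSubring Fermat.Agent.S31.Qb, B.LiesOverPrime l →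
        ∀ σ : Fermat.Agent.S31.GQ, B.IsFrobeniusAt σ l →
          LinearMap.charpoly (ρbar.ρ σ) = X ^ 2 - C (a l) * X + C ((l : k)))
    (q : ℕ) (hq : q.Prime) (_hqp : q ≠ p) (m : ℕ) (hm : 0 < m) (S' : Finset ℕ) :
    ∃ l : ℕ, l.Prime ∧ l ∉ S ∧ l ∉ S' ∧ l ≡ 1 [MOD m] ∧ l ≡ 1 [MOD p] ∧
      a l ≠ (l : k) + 1 ∧ ¬ (q ^ ((l - 1) / p) ≡ 1 [MOD l]) := by
  classical
  have hp : p.Prime := Fact.out
  by_contra hcon0
  have hcon : ∀ ℓ : ℕ, ℓ.Prime → ℓ ∉ S → ℓ ∉ S' → ℓ ≡ 1 [MOD m] → ℓ ≡ 1 [MOD p] →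
      ¬ (q ^ ((ℓ - 1) / p) ≡ 1 [MOD ℓ]) → a ℓ = (ℓ : k) + 1 := by
    intro ℓ h1 h2 h3 h4 h5 h6
    by_contra h7
    exact hcon0 ⟨ℓ, h1, h2, h3, h4, h5, h7, h6⟩
  obtain ⟨M, hMdef⟩ : ∃ M : ℕ, M = m * p := ⟨_, rfl⟩
  have hMpos : 0 < M := by rw [hMdef]; exact Nat.mul_pos hm hp.pos
  have : NeZero M := ⟨hMpos.ne'⟩
  have hpM : p ∣ M := by rw [hMdef]; exact Dvd.intro_left _ rfl
  have hmM : m ∣ M := by rw [hMdef]; exact Dvd.intro _ rfl
  have hdim : Module.finrank k ρbar.V = 2 := ρbar.finrank_eq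
  have h2 : (2 : k) ≠ 0 := by
    intro h
    have h' : ((2 : ℕ) : k) = 0 := by exact_mod_cast h
    rw [CharP.cast_eq_zero_iff k p] at h'
    exact hp2 ((Nat.prime_dvd_prime_iff_eq hp Nat.prime_two).mp h')
  -- the real `p`-th root of `q`
  obtain ⟨β, hβ, hcβ⟩ := exists_real_root_h701 p q hp.ne_zero
  have hq0 : (q : Qb) ≠ 0 := Nat.cast_ne_zero.mpr hq.ne_zero
  have hβ0 : β ≠ 0 := by
    rintro rfl
    rw [zero_pow hp.ne_zero] at hβ
    exact hq0 hβ.symm
  -- (Eis') elements of the kernel moving `β` are unipotent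
  have hmove : ∀ s : GQ701, cycloPow M s = 1 → s β ≠ β →
      (ρbar.ρ s - 1) * (ρbar.ρ s - 1) = 0 := by
    intro s hs hsβ
    obtain ⟨ℓ, A, τ, e, j, hℓ, hℓS, hℓS', hA, hτ, hρ, -, hχk, hβj, hχτ, hrel⟩ :=
      exists_frob_package_h424 ρbar S a ha M β (insert q (insert p S')) s
    simp only [Finset.mem_insert, not_or] at hℓS'
    obtain ⟨hℓq, hℓp, hℓS'⟩ := hℓS'
    have hτ1 : cycloPow M τ = 1 := by rw [hχk, hs, one_pow]
    rw [hτ1, Units.val_one] at hχτ
    have hℓ1 : ℓ ≡ 1 [MOD M] := by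
      rw [← ZMod.natCast_eq_natCast_iff, ← hχτ, Nat.cast_one]
    have hℓ1p : ℓ ≡ 1 [MOD p] := hℓ1.of_dvd hpM
    have hpℓ : p ∣ ℓ - 1 := (Nat.modEq_iff_dvd' hℓ.one_le).mp hℓ1p.symm
    have hτβ : τ β ≠ β := by
      intro h
      apply hsβ
      rw [← hβj]
      exact pow_apply_of_apply_h701 τ h j
    have hℓq' : ¬ ℓ ∣ q := by
      intro h
      exact hℓq ((Nat.prime_dvd_prime_iff_eq hℓ hq).mp h)
    have hkum : (q : ZMod ℓ) ^ ((ℓ - 1) / p) ≠ 1 := by
      intro h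
      exact hτβ (frob_fix_root_h701 hℓ hp hℓp hℓq' hA hτ hpℓ hβ h)
    have hkum' : ¬ (q ^ ((ℓ - 1) / p) ≡ 1 [MOD ℓ]) := by
      intro h
      apply hkum
      have := (ZMod.natCast_eq_natCast_iff _ _ _).mpr h
      push_cast at this
      exact this
    have hal := hcon ℓ hℓ hℓS hℓS' (hℓ1.of_dvd hmM) hℓ1p hkum'
    have hℓ1k : (ℓ : k) = 1 := by
      have h1 : ((ℓ - 1 : ℕ) : k) = 0 := (CharP.cast_eq_zero_iff k p _).mpr hpℓ
      rw [Nat.cast_sub hℓ.one_le, Nat.cast_one, sub_eq_zero] at h1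
      exact h1
    rw [hal, hℓ1k, one_smul] at hrel
    have h1 : (ρbar.ρ τ - 1) * (ρbar.ρ τ - 1) = 0 := by
      rw [← hrel]
      rw [show ((1 : k) + 1) • ρbar.ρ τ = ρbar.ρ τ + ρbar.ρ τ by rw [add_smul, one_smul]]
      noncomm_ring
    rw [hρ]
    exact sq_zero_pow_sub_one_h701 _ h1 j
  -- (K1) an element of the kernel moving `β`
  obtain ⟨s₁, hs₁, hs₁β⟩ := exists_moving_h701 hp hp2 hq hβ hcβ M
  -- (K3) the whole kernel is unipotent
  have hunip : ∀ s : GQ701, cycloPow M s = 1 → (ρbar.ρ s - 1) * (ρbar.ρ s - 1) = 0 := by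
    intro s hs
    by_cases hsβ : s β = β
    · -- trace trick with `s₁`
      have e1 : (s₁ * s) β = s₁ β := by
        show s₁ (s β) = s₁ β
        rw [hsβ]
      have hz : (s₁ β / β) ^ p = 1 := by
        rw [div_pow, ← map_pow, hβ, map_natCast, div_self hq0]
      have hzM : (s₁ β / β) ^ M = 1 := by
        obtain ⟨d, hd⟩ := hpM
        rw [hd, pow_mul, hz, one_pow]
      have hfixz : s₁ (s₁ β / β) = s₁ β / β :=
        apply_root_of_cycloPow_eq_one_h701 M s₁ hs₁ hzM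
      have e2 : (s₁ * s₁ * s) β = β * (s₁ β / β) ^ 2 := by
        show s₁ (s₁ (s β)) = _
        rw [hsβ]
        have : s₁ β = β * (s₁ β / β) := by field_simp
        conv_lhs => rw [this, map_mul, hfixz]
        rw [this]
        field_simp
      have hne2 : (s₁ * s₁ * s) β ≠ β := by
        rw [e2]
        intro h
        have hz2 : (s₁ β / β) ^ 2 = 1 := by
          have := mul_left_cancel₀ hβ0 (h.trans (mul_one β).symm)
          exact this
        obtain ⟨t, ht⟩ := hp.odd_of_ne_two hp2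
        have hz1 : s₁ β / β = 1 := by
          have : (s₁ β / β) ^ p = s₁ β / β := by
            rw [ht, pow_succ, pow_mul, hz2, one_pow, one_mul]
          rw [← this, hz]
        exact hs₁β ((div_eq_one_iff_eq hβ0).1 hz1)
      have u0 := hmove s₁ hs₁ hs₁β
      have u1 := hmove (s₁ * s) (by rw [map_mul, hs₁, hs, one_mul]) (by rw [e1]; exact hs₁β)
      have u2 := hmove (s₁ * s₁ * s) (by rw [map_mul, map_mul, hs₁, hs, one_mul, one_mul]) hne2
      rw [map_mul] at u1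
      rw [map_mul, map_mul] at u2
      exact unipotent_of_pair_h701 hdim _ _ u0 u1 u2
    · exact hmove s hs hsβ
  -- the reduction of the cyclotomic character
  let ε : (ZMod M)ˣ →* kˣ := Units.map ((ZMod.castHom hpM k : ZMod M →+* k) : ZMod M →* k)
  have hεcoe : ∀ u : (ZMod M)ˣ, ((ε u : kˣ) : k) = ZMod.castHom hpM k (u : ZMod M) :=
    fun u => rfl
  -- the Frobenius relation for determinants
  have hF : ∀ σ : GQ701, ∃ (τ : GQ701) (j : ℕ) (b : k),
      ρbar.ρ σ = ρbar.ρ τ ^ j ∧ cycloPow M σ = cycloPow M τ ^ j ∧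
        ρbar.ρ τ * ρbar.ρ τ - b • ρbar.ρ τ
          + ((ε (cycloPow M τ) : kˣ) : k) • (1 : Module.End k ρbar.V) = 0 := by
    intro σ
    obtain ⟨ℓ, A, τ, e, j, -, -, -, -, -, hρ, hχ, -, -, hχτ, hrel⟩ :=
      exists_frob_package_h424 ρbar S a ha M β S' σ
    refine ⟨τ, j, a ℓ, hρ, hχ, ?_⟩
    rw [hεcoe, hχτ, map_natCast]
    exact hrel
  obtain ⟨c, hc⟩ := exists_cycloPow_eq_neg_one_h701 M
  have hc2 : cycloPow M c * cycloPow M c = 1 := by rw [hc]; simp
  have hcε : ((ε (cycloPow M c) : kˣ) : k) = -1 := by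
    rw [hεcoe, hc, Units.val_neg, Units.val_one, map_neg, map_one]
  obtain ⟨L, hL0, hL1, hLstab⟩ := exists_stable_line_of_unipotent_h701 h2 hdim
    ρbar.ρ (cycloPow M) ε hunip hF c hc2 hcε
  exact not_exists_stable_h424 ρbar habs L hL0 hL1 (fun σ x hx => hLstab σ x hx)

end Main

end Fermat.Agent.S59.H424
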